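import Mathlib
import Fermat.Agent.S49.DeligneSerre
import Fermat.Agent.S49.Lifting

set_option autoImplicit false

/-!
# S41 / BlockCount, piece C: descent (reverse Deligne--Serre)

Pure algebra (Mathlib + the `S49` lattice helpers only).

* `exists_ne_zero_forall_smul_eq_zero`: a finite module `M` over a commutative ring with
  `I • ⊤ ≠ ⊤` contains a nonzero element killed by `I`.
* `exists_not_mem_smul_forall_smul_mem`: a finitely generated, faithful submodule `L` with
  `L / cL` finite, `c ∈ I ≠ ⊤`, contains `x ∉ cL` with `I x ⊆ cL`.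
* `exists_mod_eigenvector_of_eigenvector`: the lattice form used by BlockCount.
-/

namespace Fermat.Agent.S41.Count.Descent

open Pointwise

section FiniteModule

variable {R M : Type*} [CommRing R] [AddCommGroup M] [Module R M]

/-- In a finite module `M` with `I M ≠ M` there is a nonzero element killed by `I`. -/
theorem exists_ne_zero_forall_smul_eq_zero [Finite M] (I : Ideal R)
    (h : I • (⊤ : Submodule R M) ≠ ⊤) : ∃ x : M, x ≠ 0 ∧ ∀ r ∈ I, r • x = 0 := by
  classical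
  have : IsArtinian R M := inferInstance
  have : IsNoetherian R M := inferInstance
  -- the chain `I^k M` stabilises
  let f : ℕ →o (Submodule R M)ᵒᵈ :=
    { toFun := fun k => OrderDual.toDual (I ^ k • (⊤ : Submodule R M))
      monotone' := by
        intro a b hab
        change I ^ b • (⊤ : Submodule R M) ≤ I ^ a • ⊤
        exact Submodule.smul_mono_left (Ideal.pow_le_pow_right hab) }
  obtain ⟨n, hn⟩ := IsArtinian.monotone_stabilizes f
  have hstab : I ^ (n + 1) • (⊤ : Submodule R M) = I ^ n • ⊤ := by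
    have := hn (n + 1) (Nat.le_succ n)
    exact (congrArg OrderDual.ofDual this).symm
  set Minf : Submodule R M := I ^ n • ⊤ with hMinf
  have hle : Minf ≤ I • Minf := by
    rw [hMinf, ← Submodule.mul_smul, ← pow_succ', hstab]
  obtain ⟨r, hr1, hr0⟩ := Submodule.exists_sub_one_mem_and_smul_eq_zero_of_fg_of_le_smul I Minf
    (IsNoetherian.noetherian Minf) hle
  -- `r ^ k ≡ 1 mod I`
  have hrpow : ∀ k : ℕ, r ^ k - 1 ∈ I := by
    intro k
    induction k with
    | zero => simp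
    | succ k ih =>
      have : r ^ (k + 1) - 1 = r ^ k * (r - 1) + (r ^ k - 1) := by ring
      rw [this]
      exact I.add_mem (I.mul_mem_left _ hr1) ih
  -- `N := r M`
  let N : Submodule R M := (⊤ : Submodule R M).map (LinearMap.lsmul R M r)
  have hNne : N ≠ ⊥ := by
    intro hN
    apply h
    rw [eq_top_iff]
    intro y _
    have hry : r • y = 0 := by
      have : r • y ∈ N := ⟨y, Submodule.mem_top, rfl⟩
      rw [hN, Submodule.mem_bot] at this
      exact this
    have : y = -((r - 1) • y) := by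
      rw [sub_smul, hry, one_smul, zero_sub, neg_neg]
    rw [this]
    exact Submodule.neg_mem _ (Submodule.smul_mem_smul hr1 Submodule.mem_top)
  have hNkill : I ^ n • N = ⊥ := by
    rw [eq_bot_iff]
    rw [Submodule.smul_le]
    rintro a ha _ ⟨y, -, rfl⟩
    rw [Submodule.mem_bot]
    change a • (r • y) = 0
    rw [smul_comm]
    exact hr0 _ (Submodule.smul_mem_smul ha Submodule.mem_top)
  -- minimal `j` with `I^j N = 0`
  have hex : ∃ j, I ^ j • N = ⊥ := ⟨n, hNkill⟩
  set j := Nat.find hex with hj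
  have hjspec : I ^ j • N = ⊥ := Nat.find_spec hex
  have hj0 : j ≠ 0 := by
    intro h0
    rw [h0, pow_zero, Ideal.one_eq_top, Submodule.top_smul] at hjspec
    exact hNne hjspec
  obtain ⟨j', hj'⟩ := Nat.exists_eq_succ_of_ne_zero hj0
  have hj'ne : I ^ j' • N ≠ ⊥ := by
    have : j' < j := by omega
    exact Nat.find_min hex this
  obtain ⟨x, hxmem, hx0⟩ := Submodule.exists_mem_ne_zero_of_ne_bot hj'ne
  refine ⟨x, hx0, fun a ha => ?_⟩
  have : a • x ∈ I ^ j • N := by
    rw [hj', pow_succ', Submodule.mul_smul]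
    exact Submodule.smul_mem_smul ha hxmem
  rw [hjspec, Submodule.mem_bot] at this
  exact this

end FiniteModule

section Faithful

variable {R V : Type*} [CommRing R] [AddCommGroup V] [Module R V]

/-- A finitely generated faithful submodule `L` with `L / cL` finite and `c ∈ I ≠ ⊤` contains an
element `x ∉ cL` with `I x ⊆ cL`. -/
theorem exists_not_mem_smul_forall_smul_mem (L : Submodule R V) (hLfg : L.FG)
    (hfaith : ∀ r : R, (∀ x ∈ L, r • x = 0) → r = 0) (c : R) (I : Ideal R) (hc : c ∈ I)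
    (hI : I ≠ ⊤) [Finite (L ⧸ (c • (⊤ : Submodule R L)))] :
    ∃ x ∈ L, x ∉ c • L ∧ ∀ r ∈ I, r • x ∈ c • L := by
  classical
  set cL : Submodule R L := c • (⊤ : Submodule R L) with hcL
  have hcLI : cL ≤ I • (⊤ : Submodule R L) := by
    intro x hx
    obtain ⟨z, -, rfl⟩ := (Submodule.mem_smul_pointwise_iff_exists _ _ _).mp hx
    exact Submodule.smul_mem_smul hc Submodule.mem_top
  have hne : I • (⊤ : Submodule R (L ⧸ cL)) ≠ ⊤ := by
    intro htop
    have hLI : (⊤ : Submodule R L) ≤ I • (⊤ : Submodule R L) := by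
      intro x _
      have h1 : cL.mkQ x ∈ I • (⊤ : Submodule R (L ⧸ cL)) := by rw [htop]; exact Submodule.mem_top
      have h2 : I • (⊤ : Submodule R (L ⧸ cL)) = (I • (⊤ : Submodule R L)).map cL.mkQ := by
        rw [Submodule.map_smul'', Submodule.map_top, Submodule.range_mkQ]
      rw [h2] at h1
      obtain ⟨y, hy, hyx⟩ := h1
      have h3 : x - y ∈ cL := by
        have : cL.mkQ (x - y) = 0 := by rw [map_sub, hyx, sub_self]
        exact (Submodule.Quotient.mk_eq_zero cL).mp this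
      have : x = y + (x - y) := by abel
      rw [this]
      exact Submodule.add_mem _ hy (hcLI h3)
    have hfgtop : (⊤ : Submodule R L).FG := by
      have : Module.Finite R L := Module.Finite.iff_fg.mpr hLfg
      exact Module.Finite.fg_top
    obtain ⟨r, hr1, hr0⟩ := Submodule.exists_sub_one_mem_and_smul_eq_zero_of_fg_of_le_smul I
      (⊤ : Submodule R L) hfgtop hLI
    have hr : r = 0 := by
      apply hfaith
      intro x hx
      have := hr0 ⟨x, hx⟩ Submodule.mem_top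
      exact congrArg Subtype.val this
    rw [hr, zero_sub] at hr1
    apply hI
    rw [Ideal.eq_top_iff_one]
    simpa using I.neg_mem hr1
  obtain ⟨xbar, hx0, hxI⟩ := exists_ne_zero_forall_smul_eq_zero I hne
  obtain ⟨x, rfl⟩ := cL.mkQ_surjective xbar
  refine ⟨x, x.2, ?_, ?_⟩
  · intro hx
    apply hx0
    obtain ⟨z, hz, hzx⟩ := (Submodule.mem_smul_pointwise_iff_exists _ _ _).mp hx
    have : x ∈ cL := by
      refine (Submodule.mem_smul_pointwise_iff_exists _ _ _).mpr ⟨⟨z, hz⟩, Submodule.mem_top, ?_⟩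
      exact Subtype.ext hzx
    exact (Submodule.Quotient.mk_eq_zero cL).mpr this
  · intro r hr
    have h1 : cL.mkQ (r • x) = 0 := by rw [map_smul]; exact hxI r hr
    have h2 : r • x ∈ cL := (Submodule.Quotient.mk_eq_zero cL).mp h1
    obtain ⟨z, -, hz⟩ := (Submodule.mem_smul_pointwise_iff_exists _ _ _).mp h2
    refine (Submodule.mem_smul_pointwise_iff_exists _ _ _).mpr ⟨z, z.2, ?_⟩
    have := congrArg Subtype.val hz
    simpa using this

end Faithful

section Lattice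

open Fermat.Agent.S49
open scoped IsMulCommutative

variable {V : Type*} [AddCommGroup V] [Module ℂ V]

/-- `p • L` as a `ℤ`-submodule. -/
def pLat (p : ℕ) (L : Submodule ℤ V) : Submodule ℤ V := L.map (LinearMap.lsmul ℤ V (p : ℤ))

theorem mem_pLat {p : ℕ} {L : Submodule ℤ V} {x : V} :
    x ∈ pLat p L ↔ ∃ g ∈ L, x = (p : ℂ) • g := by
  unfold pLat
  rw [Submodule.mem_map]
  constructor
  · rintro ⟨g, hg, rfl⟩
    refine ⟨g, hg, ?_⟩
    rw [LinearMap.lsmul_apply, ← Int.cast_smul_eq_zsmul ℂ]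
    norm_num
  · rintro ⟨g, hg, rfl⟩
    refine ⟨g, hg, ?_⟩
    rw [LinearMap.lsmul_apply, ← Int.cast_smul_eq_zsmul ℂ]
    norm_num

theorem mem_pLat_iff_nsmul {p : ℕ} {L : Submodule ℤ V} {x : V} :
    x ∈ pLat p L ↔ ∃ g ∈ L, x = p • g := by
  rw [mem_pLat]
  constructor
  · rintro ⟨g, hg, rfl⟩
    exact ⟨g, hg, by rw [Nat.cast_smul_eq_nsmul]⟩
  · rintro ⟨g, hg, rfl⟩
    exact ⟨g, hg, by rw [Nat.cast_smul_eq_nsmul]⟩

theorem pLat_le {p : ℕ} {L : Submodule ℤ V} : pLat p L ≤ L := by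
  intro x hx
  obtain ⟨g, hg, rfl⟩ := mem_pLat_iff_nsmul.mp hx
  exact L.smul_of_tower_mem p hg

variable {ι : Type*} (T : ι → Module.End ℂ V)

/-- **Descent (reverse Deligne--Serre).**  A common eigenvector of a commuting family preserving a
finitely generated spanning lattice `L`, whose eigenvalues are congruent to integers `χ i` modulo a
proper ideal `𝔪 ∋ p` of the ring of algebraic integers, forces a mod-`p` eigenvector
`f₀ ∈ L ∖ pL` with eigenvalues `χ i`. -/
theorem exists_mod_eigenvector_of_eigenvector (hcomm : ∀ i j, Commute (T i) (T j))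
    (L : Submodule ℤ V) (hLfg : L.FG) (hLspan : Submodule.span ℂ (L : Set V) = ⊤)
    (hLT : ∀ i, ∀ x ∈ L, T i x ∈ L) (p : ℕ) (hp : p ≠ 0)
    (v : V) (hv : v ≠ 0) (θ : ι → ℂ) (hθ : ∀ i, T i v = θ i • v)
    (𝔪 : Ideal (integralClosure ℤ ℂ)) (h𝔪 : 𝔪 ≠ ⊤) (hp𝔪 : (p : integralClosure ℤ ℂ) ∈ 𝔪)
    (χ : ι → ℤ)
    (hχ : ∀ i, ∃ c : integralClosure ℤ ℂ, (c : ℂ) = θ i ∧ c - (χ i : integralClosure ℤ ℂ) ∈ 𝔪) :
    ∃ f₀ ∈ L, f₀ ∉ pLat p L ∧ ∀ i, T i f₀ - (χ i : ℂ) • f₀ ∈ pLat p L := by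
  classical
  have : FiniteDimensional ℂ V := finiteDimensional_of_lattice L hLfg hLspan
  set 𝕋 : Subalgebra ℤ (Module.End ℂ V) := Algebra.adjoin ℤ (Set.range T) with h𝕋
  have hcomm' : ∀ a ∈ Set.range T, ∀ b ∈ Set.range T, a * b = b * a := by
    rintro _ ⟨i, rfl⟩ _ ⟨j, rfl⟩
    exact (hcomm i j).eq
  have : IsMulCommutative 𝕋 := Algebra.isMulCommutative_adjoin ℤ hcomm'
  have hT𝕋 : ∀ i, T i ∈ 𝕋 := fun i => Algebra.subset_adjoin ⟨i, rfl⟩
  have h𝕋L : ∀ t : 𝕋, ∀ x ∈ L, (t : Module.End ℂ V) x ∈ L :=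
    fun t => adjoin_maps_L T L hLT t.1 t.2
  have hsmul : ∀ (t : 𝕋) (x : V), t • x = (t : Module.End ℂ V) x := fun t x => rfl
  -- the eigencharacter
  have hD : ∀ t : 𝕋, ∃ μ : ℂ, (t : Module.End ℂ V) v = μ • v :=
    fun t => adjoin_eigen T hθ t.1 t.2
  choose θ' hθ' using hD
  have hinj : Function.Injective (fun μ : ℂ => μ • v) := smul_left_injective ℂ hv
  let θR : 𝕋 →+* ℂ :=
    { toFun := θ'
      map_one' := hinj (by
        show θ' 1 • v = (1 : ℂ) • v
        rw [← hθ' 1, one_smul]; rfl)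
      map_mul' := fun a b => hinj (by
        show θ' (a * b) • v = (θ' a * θ' b) • v
        rw [← hθ' (a * b)]
        show (a : Module.End ℂ V) ((b : Module.End ℂ V) v) = _
        rw [hθ' b, map_smul, hθ' a, smul_smul, mul_comm])
      map_zero' := hinj (by
        show θ' 0 • v = (0 : ℂ) • v
        rw [← hθ' 0, zero_smul]; rfl)
      map_add' := fun a b => hinj (by
        show θ' (a + b) • v = (θ' a + θ' b) • v
        rw [← hθ' (a + b), add_smul, ← hθ' a, ← hθ' b]; rfl) }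
  have hθR : ∀ t : 𝕋, (t : Module.End ℂ V) v = θR t • v := hθ'
  have hint : ∀ t : 𝕋, θR t ∈ integralClosure ℤ ℂ := fun t =>
    isIntegral_eigenvalue L hLfg hLspan (t : Module.End ℂ V) (h𝕋L t) v hv (θR t) (hθR t)
  let θI : 𝕋 →+* integralClosure ℤ ℂ := θR.codRestrict (integralClosure ℤ ℂ) hint
  have hθI : ∀ t : 𝕋, ((θI t : integralClosure ℤ ℂ) : ℂ) = θR t := fun t => rfl
  -- the ideal
  let I : Ideal 𝕋 := 𝔪.comap θI
  have hI : I ≠ ⊤ := by
    intro h
    apply h𝔪
    rw [Ideal.eq_top_iff_one]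
    have : (1 : 𝕋) ∈ I := by rw [h]; exact Submodule.mem_top
    have h1 : θI 1 ∈ 𝔪 := this
    rwa [map_one] at h1
  have hpI : (p : 𝕋) ∈ I := by
    change θI (p : 𝕋) ∈ 𝔪
    rw [map_natCast]
    exact hp𝔪
  have hTI : ∀ i, (⟨T i, hT𝕋 i⟩ - algebraMap ℤ 𝕋 (χ i) : 𝕋) ∈ I := by
    intro i
    obtain ⟨c, hc, hcm⟩ := hχ i
    change θI (⟨T i, hT𝕋 i⟩ - algebraMap ℤ 𝕋 (χ i)) ∈ 𝔪
    have h1 : θI ⟨T i, hT𝕋 i⟩ = c := by
      apply Subtype.ext
      rw [hθI, hc]
      apply hinj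
      show θR ⟨T i, hT𝕋 i⟩ • v = θ i • v
      rw [← hθR, ← hθ i]
    rw [map_sub, h1, eq_intCast, map_intCast]
    exact hcm
  -- the lattice as a `𝕋`-submodule
  let L𝕋 : Submodule 𝕋 V :=
    { toAddSubmonoid := L.toAddSubmonoid
      smul_mem' := fun t x hx => h𝕋L t x hx }
  have hmemL : ∀ x, x ∈ L𝕋 ↔ x ∈ L := fun x => Iff.rfl
  have hL𝕋fg : L𝕋.FG := by
    obtain ⟨S, hS⟩ := hLfg
    refine ⟨S, le_antisymm ?_ ?_⟩
    · rw [Submodule.span_le]
      intro x hx
      have : x ∈ Submodule.span ℤ (S : Set V) := Submodule.subset_span hx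
      rw [hS] at this
      exact this
    · intro x hx
      have hx' : x ∈ Submodule.span ℤ (S : Set V) := by rw [hS]; exact hx
      exact Submodule.span_le_restrictScalars ℤ 𝕋 (S : Set V) hx'
  have hfaith : ∀ r : 𝕋, (∀ x ∈ L𝕋, r • x = 0) → r = 0 := by
    intro r hr
    apply Subtype.ext
    apply LinearMap.ext_on hLspan
    intro x hx
    exact hr x hx
  have hpsmul : ∀ x : V, (p : 𝕋) • x = (p : ℂ) • x := by
    intro x
    rw [hsmul]
    have : ((p : 𝕋) : Module.End ℂ V) = (p : Module.End ℂ V) := rfl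
    rw [this, Module.End.natCast_apply, Nat.cast_smul_eq_nsmul]
  have hmempL : ∀ x : V, x ∈ (p : 𝕋) • L𝕋 ↔ x ∈ pLat p L := by
    intro x
    rw [Submodule.mem_smul_pointwise_iff_exists, mem_pLat]
    constructor
    · rintro ⟨g, hg, rfl⟩
      exact ⟨g, hg, hpsmul g⟩
    · rintro ⟨g, hg, rfl⟩
      exact ⟨g, hg, hpsmul g⟩
  -- finiteness of `L / pL`
  have hfin : Finite (L𝕋 ⧸ ((p : 𝕋) • (⊤ : Submodule 𝕋 L𝕋))) := by
    set Q := L𝕋 ⧸ ((p : 𝕋) • (⊤ : Submodule 𝕋 L𝕋)) with hQ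
    have hLfin : Module.Finite ℤ L := Module.Finite.iff_fg.mpr hLfg
    let e : L →+ L𝕋 :=
      { toFun := fun x => ⟨x.1, x.2⟩
        map_zero' := rfl
        map_add' := fun _ _ => rfl }
    let π : L →ₗ[ℤ] Q :=
      (((p : 𝕋) • (⊤ : Submodule 𝕋 L𝕋)).mkQ.toAddMonoidHom.comp e).toIntLinearMap
    have hπ : Function.Surjective π := by
      intro y
      obtain ⟨x, rfl⟩ := Submodule.mkQ_surjective _ y
      exact ⟨⟨x.1, x.2⟩, rfl⟩
    have hQfin : Module.Finite ℤ Q := Module.Finite.of_surjective π hπ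
    have htors : Module.IsTorsion ℤ Q := by
      intro y
      obtain ⟨x, rfl⟩ := Submodule.mkQ_surjective _ y
      refine ⟨⟨(p : ℤ), mem_nonZeroDivisors_of_ne_zero (by exact_mod_cast hp)⟩, ?_⟩
      change (p : ℤ) • ((p : 𝕋) • (⊤ : Submodule 𝕋 L𝕋)).mkQ x = 0
      rw [← map_zsmul]
      apply (Submodule.Quotient.mk_eq_zero _).mpr
      refine (Submodule.mem_smul_pointwise_iff_exists _ _ _).mpr ⟨x, Submodule.mem_top, ?_⟩
      apply Subtype.ext
      change (p : 𝕋) • (x : V) = (p : ℤ) • (x : V)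
      rw [hpsmul, ← Int.cast_smul_eq_zsmul ℂ]
      norm_num
    exact Module.finite_of_fg_torsion Q htors
  obtain ⟨x, hxL, hxp, hxI⟩ :=
    exists_not_mem_smul_forall_smul_mem L𝕋 hL𝕋fg hfaith (p : 𝕋) I hpI hI
  refine ⟨x, hxL, fun h => hxp ((hmempL x).mpr h), fun i => ?_⟩
  have := hxI _ (hTI i)
  rw [hmempL] at this
  have h2 : (⟨T i, hT𝕋 i⟩ - algebraMap ℤ 𝕋 (χ i) : 𝕋) • x = T i x - (χ i : ℂ) • x := by
    rw [hsmul, Subalgebra.coe_sub, LinearMap.sub_apply, Subalgebra.coe_algebraMap,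
      algebraMap_int_end_apply]
  rwa [h2] at this

end Lattice

end Fermat.Agent.S41.Count.Descent
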