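import Mathlib
import Fermat.Agent.S49.DeligneSerre
import Fermat.Agent.S49.Lifting
import Fermat.Agent.S41.Count.Descent

set_option autoImplicit false

/-!
# S41 / BlockCount, piece D: Deligne--Serre lifting on a sublattice

`exists_eigenvector_in_span_of_mod_eigenvector`: a commuting family `T i` of endomorphisms of a
complex vector space preserving a finitely generated `ℤ`-submodule `B` (no spanning hypothesis),
together with `y ∈ B ∖ pB` which is a mod-`p` eigenvector of the subfamily `S` with integer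
eigenvalues `χ i`, has a common eigenvector `v ≠ 0` of the WHOLE family inside `span ℂ B`, whose
eigenvalues for `i ∈ S` are algebraic integers congruent to `χ i` modulo a maximal ideal above `p`.
-/

namespace Fermat.Agent.S41.Count.KerLift

open Fermat.Agent.S49 Fermat.Agent.S41.Count.Descent
open scoped IsMulCommutative

variable {V : Type*} [AddCommGroup V] [Module ℂ V]
variable {ι : Type*} (T : ι → Module.End ℂ V)

theorem adjoin_maps_pLat (L : Submodule ℤ V) (hLT : ∀ i, ∀ x ∈ L, T i x ∈ L) (p : ℕ) :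
    ∀ t ∈ Algebra.adjoin ℤ (Set.range T), ∀ x ∈ pLat p L, t x ∈ pLat p L := by
  intro t ht x hx
  obtain ⟨g, hg, rfl⟩ := mem_pLat.mp hx
  exact mem_pLat.mpr ⟨t g, adjoin_maps_L T L hLT t ht g hg, by rw [map_smul]⟩

theorem span_stable (B : Submodule ℤ V) (hBT : ∀ i, ∀ x ∈ B, T i x ∈ B) (i : ι) :
    ∀ x ∈ Submodule.span ℂ (B : Set V), T i x ∈ Submodule.span ℂ (B : Set V) := by
  intro x hx
  induction hx using Submodule.span_induction with
  | mem x hx => exact Submodule.subset_span (hBT i x hx)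
  | zero => rw [map_zero]; exact Submodule.zero_mem _
  | add x y _ _ hx hy => rw [map_add]; exact Submodule.add_mem _ hx hy
  | smul a x _ hx => rw [map_smul]; exact Submodule.smul_mem _ a hx

/-- **Deligne--Serre lifting on a sublattice.** -/
theorem exists_eigenvector_in_span_of_mod_eigenvector (hcomm : ∀ i j, Commute (T i) (T j))
    (B : Submodule ℤ V) (hBfg : B.FG) (hBT : ∀ i, ∀ x ∈ B, T i x ∈ B) (p : ℕ)
    (y : V) (hyB : y ∈ B) (hy : y ∉ pLat p B) (S : Set ι) (χ : ι → ℤ)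
    (hχ : ∀ i ∈ S, T i y - (χ i : ℂ) • y ∈ pLat p B) :
    ∃ v ∈ Submodule.span ℂ (B : Set V), v ≠ 0 ∧ ∃ θ : ι → ℂ, (∀ i, T i v = θ i • v) ∧
      ∃ 𝔪' : Ideal (integralClosure ℤ ℂ), 𝔪'.IsMaximal ∧ (p : integralClosure ℤ ℂ) ∈ 𝔪' ∧
        ∀ i ∈ S, ∃ c : integralClosure ℤ ℂ,
          (c : ℂ) = θ i ∧ c - (χ i : integralClosure ℤ ℂ) ∈ 𝔪' := by
  classical
  set W : Submodule ℂ V := Submodule.span ℂ (B : Set V) with hW
  have hWT : ∀ i, ∀ x ∈ W, T i x ∈ W := fun i => span_stable T B hBT i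
  -- restricted operators
  let TW : ι → Module.End ℂ W := fun i => (T i).restrict (hWT i)
  have hTWval : ∀ i (w : W), ((TW i w : W) : V) = T i (w : V) := fun i w => rfl
  have hcommW : ∀ i j, Commute (TW i) (TW j) := by
    intro i j
    apply LinearMap.ext
    intro w
    apply Subtype.ext
    change T i (T j (w : V)) = T j (T i (w : V))
    have := LinearMap.congr_fun (hcomm i j).eq (w : V)
    exact this
  -- the lattice inside `W`
  let j : B →ₗ[ℤ] W :=
    { toFun := fun x => ⟨x.1, Submodule.subset_span x.2⟩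
      map_add' := fun _ _ => rfl
      map_smul' := fun c x => by
        apply Subtype.ext
        change ((c • x : B) : V) = ((c • (⟨x.1, Submodule.subset_span x.2⟩ : W) : W) : V)
        rw [Submodule.coe_smul, ← Int.cast_smul_eq_zsmul ℂ c (⟨x.1, Submodule.subset_span x.2⟩ : W),
          Submodule.coe_smul, Int.cast_smul_eq_zsmul] }
  let BW : Submodule ℤ W := LinearMap.range j
  have hmemBW : ∀ w : W, w ∈ BW ↔ (w : V) ∈ B := by
    intro w
    constructor
    · rintro ⟨x, rfl⟩; exact x.2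
    · intro h; exact ⟨⟨w.1, h⟩, rfl⟩
  have hBWfg : BW.FG := by
    have : Module.Finite ℤ B := Module.Finite.iff_fg.mpr hBfg
    rw [show BW = (⊤ : Submodule ℤ B).map j from (LinearMap.range_eq_map j)]
    exact (Module.Finite.fg_top).map j
  have hBWspan : Submodule.span ℂ (BW : Set W) = ⊤ := by
    apply Submodule.map_injective_of_injective (f := W.subtype) W.injective_subtype
    rw [Submodule.map_span, Submodule.map_top, Submodule.range_subtype]
    have : (W.subtype '' (BW : Set W)) = (B : Set V) := by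
      ext x
      constructor
      · rintro ⟨w, hw, rfl⟩; exact (hmemBW w).mp hw
      · intro hx; exact ⟨⟨x, Submodule.subset_span hx⟩, (hmemBW _).mpr hx, rfl⟩
    rw [this]
  have hBWT : ∀ i, ∀ w ∈ BW, TW i w ∈ BW := by
    intro i w hw
    rw [hmemBW] at hw ⊢
    exact hBT i _ hw
  have hmempBW : ∀ w : W, w ∈ pLat p BW ↔ (w : V) ∈ pLat p B := by
    intro w
    rw [mem_pLat, mem_pLat]
    constructor
    · rintro ⟨g, hg, rfl⟩
      exact ⟨(g : V), (hmemBW g).mp hg, rfl⟩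
    · rintro ⟨g, hg, hwg⟩
      exact ⟨⟨g, Submodule.subset_span hg⟩, (hmemBW _).mpr hg, Subtype.ext hwg⟩
  -- the Hecke ring
  set 𝕋 : Subalgebra ℤ (Module.End ℂ W) := Algebra.adjoin ℤ (Set.range TW) with h𝕋
  have hcomm' : ∀ a ∈ Set.range TW, ∀ b ∈ Set.range TW, a * b = b * a := by
    rintro _ ⟨i, rfl⟩ _ ⟨k, rfl⟩
    exact (hcommW i k).eq
  have : IsMulCommutative 𝕋 := Algebra.isMulCommutative_adjoin ℤ hcomm'
  have hT𝕋 : ∀ i, TW i ∈ 𝕋 := fun i => Algebra.subset_adjoin ⟨i, rfl⟩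
  let yW : W := ⟨y, Submodule.subset_span hyB⟩
  -- the ideal of operators killing `y` modulo `pB`
  let 𝔫 : Ideal 𝕋 :=
    { carrier := {t | (t : Module.End ℂ W) yW ∈ pLat p BW}
      add_mem' := by
        intro a b ha hb
        show ((a + b : 𝕋) : Module.End ℂ W) yW ∈ pLat p BW
        have : ((a + b : 𝕋) : Module.End ℂ W) yW =
          (a : Module.End ℂ W) yW + (b : Module.End ℂ W) yW := rfl
        rw [this]
        exact Submodule.add_mem _ ha hb
      zero_mem' := by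
        show ((0 : 𝕋) : Module.End ℂ W) yW ∈ pLat p BW
        have : ((0 : 𝕋) : Module.End ℂ W) yW = 0 := rfl
        rw [this]
        exact Submodule.zero_mem _
      smul_mem' := by
        intro c a ha
        show ((c * a : 𝕋) : Module.End ℂ W) yW ∈ pLat p BW
        have : ((c * a : 𝕋) : Module.End ℂ W) yW =
          (c : Module.End ℂ W) ((a : Module.End ℂ W) yW) := rfl
        rw [this]
        exact adjoin_maps_pLat TW BW hBWT p c c.2 _ ha }
  have h𝔫mem : ∀ t : 𝕋, t ∈ 𝔫 ↔ (t : Module.End ℂ W) yW ∈ pLat p BW := fun t => Iff.rfl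
  have h𝔫ne : 𝔫 ≠ ⊤ := by
    intro h
    have h1 : (1 : 𝕋) ∈ 𝔫 := h ▸ Submodule.mem_top
    rw [h𝔫mem] at h1
    have h2 : ((1 : 𝕋) : Module.End ℂ W) yW = yW := rfl
    rw [h2, hmempBW] at h1
    exact hy h1
  obtain ⟨𝔪, h𝔪max, h𝔫le⟩ := Ideal.exists_le_maximal 𝔫 h𝔫ne
  have hp𝔫 : (p : 𝕋) ∈ 𝔫 := by
    rw [h𝔫mem]
    have : ((p : 𝕋) : Module.End ℂ W) yW = (p : ℂ) • yW := by
      have h0 : ((p : 𝕋) : Module.End ℂ W) = (p : Module.End ℂ W) := rfl
      rw [h0, Module.End.natCast_apply, Nat.cast_smul_eq_nsmul]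
    rw [this]
    exact mem_pLat.mpr ⟨yW, (hmemBW yW).mpr hyB, rfl⟩
  have hT𝔫 : ∀ i ∈ S, (⟨TW i, hT𝕋 i⟩ - algebraMap ℤ 𝕋 (χ i) : 𝕋) ∈ 𝔫 := by
    intro i hi
    rw [h𝔫mem]
    have : ((⟨TW i, hT𝕋 i⟩ - algebraMap ℤ 𝕋 (χ i) : 𝕋) : Module.End ℂ W) yW =
        TW i yW - (χ i : ℂ) • yW := by
      rw [Subalgebra.coe_sub, LinearMap.sub_apply, Subalgebra.coe_algebraMap,
        algebraMap_int_end_apply]
    rw [this, hmempBW]
    exact hχ i hi
  -- apply the abstract lifting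
  have hρinj : Function.Injective (𝕋.val : 𝕋 →+* Module.End ℂ W) := Subtype.val_injective
  obtain ⟨w, θ, 𝔪', hw0, hθ, h𝔪'max, h𝔪𝔪'⟩ :=
    exists_lift (T := 𝕋) (𝕋.val : 𝕋 →+* Module.End ℂ W) hρinj BW hBWfg hBWspan
      (fun t x hx => adjoin_maps_L TW BW hBWT t.1 t.2 x hx) 𝔪
  refine ⟨(w : V), w.2, fun h => hw0 (Subtype.ext h),
    fun i => ((θ ⟨TW i, hT𝕋 i⟩ : integralClosure ℤ ℂ) : ℂ), ?_, 𝔪', h𝔪'max, ?_, ?_⟩
  · intro i
    have := hθ ⟨TW i, hT𝕋 i⟩
    have h2 := congrArg (fun u : W => (u : V)) this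
    exact h2
  · have := h𝔪𝔪' _ (h𝔫le hp𝔫)
    rwa [map_natCast] at this
  · intro i hi
    refine ⟨θ ⟨TW i, hT𝕋 i⟩, rfl, ?_⟩
    have h3 := h𝔪𝔪' _ (h𝔫le (hT𝔫 i hi))
    have h4 : θ (⟨TW i, hT𝕋 i⟩ - algebraMap ℤ 𝕋 (χ i)) =
        θ ⟨TW i, hT𝕋 i⟩ - θ (algebraMap ℤ 𝕋 (χ i)) :=
      map_sub θ ⟨TW i, hT𝕋 i⟩ (algebraMap ℤ 𝕋 (χ i))
    have h5 : θ (algebraMap ℤ 𝕋 (χ i)) = (χ i : integralClosure ℤ ℂ) := by
      have h6 : algebraMap ℤ 𝕋 (χ i) = ((χ i : ℤ) : 𝕋) := eq_intCast _ _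
      rw [h6]
      exact map_intCast θ (χ i)
    rw [h4, h5] at h3
    exact h3

end Fermat.Agent.S41.Count.KerLift
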