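/-
S41, BlockCount: the PRODUCT instantiation of `Count.Abstract.exists_new_eigenvector_self`.

`X = X(N)`, `Y = X(Nq)` abstract `ℤ`-modules (`X` finite free), two "restriction" maps
`rA rB : X → Y`, two "corestriction" maps `cA cB : Y → X`, adjoint for forms `BX`, `BY`
(`BX` surjective onto the dual, `BY` bijective), Hecke families `TX i`, `TY i` intertwined by the
four maps, one self-adjoint operator `TX i0`, Ihara's lemma at `i0` in componentwise form, the four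
composites `cA rA = cB rB = q + 1`, `cA rB = T_q`, `cB rA = T_q'`, a sign `ε` and a vector `x ∉ pX`
which is a `θ`-eigenvector modulo `p` with `T_q x ≡ ε (q+1) x`, `T_q' x ≡ ε (q+1) x`.

Conclusion: `y ∈ ker cA ∩ ker cB`, `y ∉ pY`, `TY i y - θ i • y ∈ p (ker cA ∩ ker cB)`.

Everything about `L = X × X`, `ιU = rA.coprod rB`, `ιD = cA.prod cB`, the product form and the
starting vector `x0 = (x, -ε x)` is internal.
-/
import Mathlib
import Fermat.Agent.S41.Count.Abstract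

set_option autoImplicit false
set_option linter.unusedSectionVars false

namespace Fermat.Agent.S41.Count.Product

section Form

variable {X : Type*} [AddCommGroup X]

/-- the orthogonal sum of two copies of a bilinear form. -/
def prodForm (BX : X →ₗ[ℤ] X →ₗ[ℤ] ℤ) : (X × X) →ₗ[ℤ] (X × X) →ₗ[ℤ] ℤ :=
  BX.compl₁₂ (LinearMap.fst ℤ X X) (LinearMap.fst ℤ X X) +
    BX.compl₁₂ (LinearMap.snd ℤ X X) (LinearMap.snd ℤ X X)

@[simp] theorem prodForm_apply (BX : X →ₗ[ℤ] X →ₗ[ℤ] ℤ) (a b : X × X) :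
    prodForm BX a b = BX a.1 b.1 + BX a.2 b.2 := by
  simp [prodForm]

theorem prodForm_surjective (BX : X →ₗ[ℤ] X →ₗ[ℤ] ℤ) (hBX : Function.Surjective BX) :
    Function.Surjective (prodForm BX) := by
  intro φ
  obtain ⟨x1, hx1⟩ := hBX (φ.comp (LinearMap.inl ℤ X X))
  obtain ⟨x2, hx2⟩ := hBX (φ.comp (LinearMap.inr ℤ X X))
  refine ⟨(x1, x2), ?_⟩
  ext w
  · simp [hx1]
  · simp [hx2]

theorem prodForm_NL (p : ℕ) (BX : X →ₗ[ℤ] X →ₗ[ℤ] ℤ)
    (NX : ∀ φ : X →+ ZMod p, ∃ x : X, ∀ w : X, φ w = ((BX x w : ℤ) : ZMod p)) :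
    ∀ φ : X × X →+ ZMod p, ∃ a : X × X, ∀ w : X × X,
      φ w = ((prodForm BX a w : ℤ) : ZMod p) := by
  intro φ
  obtain ⟨x1, hx1⟩ := NX (φ.comp (AddMonoidHom.inl X X))
  obtain ⟨x2, hx2⟩ := NX (φ.comp (AddMonoidHom.inr X X))
  refine ⟨(x1, x2), ?_⟩
  rintro ⟨w1, w2⟩
  have h : ((w1, w2) : X × X) = AddMonoidHom.inl X X w1 + AddMonoidHom.inr X X w2 := by
    simp
  have e1 := hx1 w1
  have e2 := hx2 w2
  simp only [AddMonoidHom.comp_apply] at e1 e2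
  rw [prodForm_apply, Int.cast_add, ← e1, ← e2, ← map_add, ← h]

theorem prodAp {Y : Type*} [AddCommGroup Y] (cA cB : Y →ₗ[ℤ] X) (h : Y) :
    (cA.prod cB) h = (cA h, cB h) := rfl

end Form

section Main

variable {X Y : Type*} [AddCommGroup X] [AddCommGroup Y] [Module.Finite ℤ X] [Module.Free ℤ X]
  (p : ℕ) [hp : Fact p.Prime]
  (rA rB : X →ₗ[ℤ] Y) (cA cB : Y →ₗ[ℤ] X)
  (BX : X →ₗ[ℤ] X →ₗ[ℤ] ℤ) (BY : Y →ₗ[ℤ] Y →ₗ[ℤ] ℤ)
  (hadjA : ∀ x h, BY (rA x) h = BX x (cA h))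
  (hadjB : ∀ x h, BY (rB x) h = BX x (cB h))
  {I : Type*} (TX : I → Module.End ℤ X) (TY : I → Module.End ℤ Y)
  (hrA : ∀ i x, rA (TX i x) = TY i (rA x))
  (hrB : ∀ i x, rB (TX i x) = TY i (rB x))
  (hcA : ∀ i h, cA (TY i h) = TX i (cA h))
  (hcB : ∀ i h, cB (TY i h) = TX i (cB h))
  (i0 : I) (θ : I → ℤ)
  (hself : ∀ x w, BX x (TX i0 w) = BX (TX i0 x) w)
  (Ihara : ∀ x1 x2 : X, (∃ z : Y, rA x1 + rB x2 = (p : ℤ) • z) →
    (∃ w : X, TX i0 x1 = θ i0 • x1 + (p : ℤ) • w) →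
    (∃ w : X, TX i0 x2 = θ i0 • x2 + (p : ℤ) • w) →
    (∃ w : X, x1 = (p : ℤ) • w) ∧ (∃ w : X, x2 = (p : ℤ) • w))
  (Tq Tq' : Module.End ℤ X) (qq : ℤ)
  (hAA : ∀ x, cA (rA x) = qq • x) (hAB : ∀ x, cA (rB x) = Tq x)
  (hBA : ∀ x, cB (rA x) = Tq' x) (hBB : ∀ x, cB (rB x) = qq • x)
  (ε : ℤ) (hε : ε * ε = 1)

include hadjA hadjB hrA hrB hcA hcB hself Ihara hAA hAB hBA hBB hε in
/-- **BlockCount for `L = X × X`**, with the two forms only assumed unimodular modulo `p`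
(`NX`: every functional `X → 𝔽_p` is `BX x` mod `p`; `NY`: `BY z ≡ 0` mod `p` forces `z ∈ pY`). -/
theorem exists_new_eigenvector_modp
    (NX : ∀ φ : X →+ ZMod p, ∃ x : X, ∀ w : X, φ w = ((BX x w : ℤ) : ZMod p))
    (NY : ∀ z : Y, (∀ h : Y, (p : ℤ) ∣ BY z h) → ∃ z' : Y, z = (p : ℤ) • z')
    (x : X) (hx : ∀ w : X, x ≠ (p : ℤ) • w)
    (hxT : ∀ i, ∃ w : X, TX i x = θ i • x + (p : ℤ) • w)
    (hxq : ∃ w : X, Tq x = (ε * qq) • x + (p : ℤ) • w)
    (hxq' : ∃ w : X, Tq' x = (ε * qq) • x + (p : ℤ) • w) :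
    ∃ y : Y, cA y = 0 ∧ cB y = 0 ∧ (∀ z : Y, y ≠ (p : ℤ) • z) ∧
      ∀ i, ∃ z : Y, cA z = 0 ∧ cB z = 0 ∧ TY i y = θ i • y + (p : ℤ) • z := by
  have hIh : ∀ a : X × X, (∃ z : Y, (rA.coprod rB) a = (p : ℤ) • z) →
      (∃ w : X × X, ((TX i0).prodMap (TX i0)) a = θ i0 • a + (p : ℤ) • w) →
      ∃ w : X × X, a = (p : ℤ) • w := by
    rintro ⟨x1, x2⟩ ⟨z, hz⟩ ⟨⟨w1, w2⟩, hw⟩
    simp only [LinearMap.coprod_apply] at hz
    simp only [LinearMap.prodMap_apply, Prod.smul_mk, Prod.mk_add_mk, Prod.mk.injEq] at hw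
    obtain ⟨⟨v1, hv1⟩, ⟨v2, hv2⟩⟩ := Ihara x1 x2 ⟨z, hz⟩ ⟨w1, hw.1⟩ ⟨w2, hw.2⟩
    exact ⟨(v1, v2), by simp only [Prod.smul_mk, Prod.mk.injEq]; exact ⟨hv1, hv2⟩⟩
  obtain ⟨e, Q, hu, hχ⟩ := Charpoly.exists_factor p ((TX i0).prodMap (TX i0)) (θ i0)
  have key := Main.exists_new_eigenvector (L := X × X) (H := Y) p
    (rA.coprod rB) (cA.prod cB) (prodForm BX) BY
    (by
      intro a h
      simp only [LinearMap.coprod_apply, map_add, LinearMap.add_apply, hadjA, hadjB,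
        prodForm_apply, prodAp])
    (prodForm_NL p BX NX) NY
    (fun i => (TX i).prodMap (TX i)) TY
    (by
      intro i a
      simp only [LinearMap.coprod_apply, LinearMap.prodMap_apply, hrA, hrB, map_add])
    (by
      intro i h
      simp only [prodAp, LinearMap.prodMap_apply, hcA, hcB])
    i0 ((TX i0).prodMap (TX i0)) (TY i0)
    (by
      intro a
      simp only [LinearMap.coprod_apply, LinearMap.prodMap_apply, hrA, hrB, map_add])
    (by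
      intro a b
      simp only [prodForm_apply, LinearMap.prodMap_apply, hself])
    θ e Q hu hχ
    (by
      rintro a ha ⟨w, hw⟩
      exact hIh a ha ⟨w, by rw [← hw]; abel⟩)
    (by
      intro a ha hT
      exact hIh a ha (hT i0))
    (x, -(ε • x))
    (by
      rintro ⟨w1, w2⟩ hw
      simp only [Prod.smul_mk, Prod.mk.injEq] at hw
      exact hx w1 hw.1)
    (by
      intro i
      obtain ⟨w, hw⟩ := hxT i
      refine ⟨(w, -(ε • w)), ?_⟩
      simp only [LinearMap.prodMap_apply, Prod.smul_mk, Prod.mk_add_mk, Prod.mk.injEq, map_neg,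
        map_zsmul, hw]
      refine ⟨trivial, ?_⟩
      module)
    (by
      obtain ⟨w, hw⟩ := hxq
      obtain ⟨w', hw'⟩ := hxq'
      refine ⟨(-(ε • w), w'), ?_⟩
      simp only [LinearMap.coprod_apply, prodAp, map_add, map_neg,
        map_zsmul, hAA, hAB, hBA, hBB, hw, hw', Prod.smul_mk, Prod.neg_mk, Prod.mk_add_mk,
        Prod.mk.injEq]
      constructor
      · have : ε • (ε * qq) • x = qq • x := by
          rw [smul_smul, ← mul_assoc, hε, one_mul]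
        rw [smul_add, this]
        module
      · module)
  obtain ⟨y, hy0, hyp, hyT⟩ := key
  simp only [prodAp, Prod.mk_eq_zero] at hy0
  refine ⟨y, hy0.1, hy0.2, hyp, ?_⟩
  intro i
  obtain ⟨z, hz0, hz⟩ := hyT i
  simp only [prodAp, Prod.mk_eq_zero] at hz0
  exact ⟨z, hz0.1, hz0.2, hz⟩

include hadjA hadjB hrA hrB hcA hcB hself Ihara hAA hAB hBA hBB hε in
/-- **BlockCount for `L = X × X`**, perfect pairings over `ℤ`. -/
theorem exists_new_eigenvector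
    (hBX : Function.Surjective BX) (hBY : Function.Bijective BY)
    (x : X) (hx : ∀ w : X, x ≠ (p : ℤ) • w)
    (hxT : ∀ i, ∃ w : X, TX i x = θ i • x + (p : ℤ) • w)
    (hxq : ∃ w : X, Tq x = (ε * qq) • x + (p : ℤ) • w)
    (hxq' : ∃ w : X, Tq' x = (ε * qq) • x + (p : ℤ) • w) :
    ∃ y : Y, cA y = 0 ∧ cB y = 0 ∧ (∀ z : Y, y ≠ (p : ℤ) • z) ∧
      ∀ i, ∃ z : Y, cA z = 0 ∧ cB z = 0 ∧ TY i y = θ i • y + (p : ℤ) • z :=
  exists_new_eigenvector_modp p rA rB cA cB BX BY hadjA hadjB TX TY hrA hrB hcA hcB i0 θ hself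
    Ihara Tq Tq' qq hAA hAB hBA hBB ε hε (Perfect.NL_of_surjective p BX hBX)
    (Perfect.NH_of_bijective p hp.out.ne_zero BY hBY) x hx hxT hxq hxq'

end Main

end Fermat.Agent.S41.Count.Product
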