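/-
S41, BlockCount: the factorisation `(X - c)^e * Q ≡ charpoly (mod p)`, `p ∤ Q(c)`, for an
endomorphism of a finite free `ℤ`-module.  It removes the hypotheses `e`, `Q`, `hχ` of
`Fermat.Agent.S41.Count.Main.exists_new_eigenvector`.
-/
import Mathlib

set_option autoImplicit false

namespace Fermat.Agent.S41.Count.Charpoly

open Polynomial

variable {L : Type*} [AddCommGroup L] [Module.Finite ℤ L] [Module.Free ℤ L]

theorem exists_factor (p : ℕ) [hp : Fact p.Prime] (a : Module.End ℤ L) (c : ℤ) :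
    ∃ (e : ℕ) (Q : ℤ[X]), ¬ (p : ℤ) ∣ Q.eval c ∧
      ∀ x : L, ∃ w : L, ((a - c • (1 : Module.End ℤ L)) ^ e) (aeval a Q x) = (p : ℤ) • w := by
  classical
  set f : ℤ →+* ZMod p := Int.castRingHom (ZMod p) with hf
  set χ : ℤ[X] := a.charpoly with hχ
  have hmonic : (χ.map f).Monic := (LinearMap.charpoly_monic a).map f
  have hne : χ.map f ≠ 0 := hmonic.ne_zero
  obtain ⟨Qb, hQb, hnd⟩ := exists_eq_pow_rootMultiplicity_mul_and_not_dvd (χ.map f) hne (f c)
  set e := rootMultiplicity (f c) (χ.map f) with he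
  obtain ⟨Q, hQ⟩ := map_surjective f (ZMod.intCast_surjective) Qb
  have hQc : f (Q.eval c) ≠ 0 := by
    rw [← eval_map_apply, hQ]
    intro h0
    exact hnd (dvd_iff_isRoot.2 h0)
  refine ⟨e, Q, ?_, ?_⟩
  · intro hdvd
    apply hQc
    exact (ZMod.intCast_zmod_eq_zero_iff_dvd _ p).2 hdvd
  · -- the difference is divisible by `p`
    have hD : ((X - C c) ^ e * Q - χ).map f = 0 := by
      rw [Polynomial.map_sub, Polynomial.map_mul, Polynomial.map_pow, Polynomial.map_sub, map_X,
        map_C, hQ, ← hQb, sub_self]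
    have hdvd : C (p : ℤ) ∣ (X - C c) ^ e * Q - χ := by
      rw [C_dvd_iff_dvd_coeff]
      intro n
      have := congrArg (fun P => P.coeff n) hD
      simp only [coeff_map, coeff_zero] at this
      exact (ZMod.intCast_zmod_eq_zero_iff_dvd _ p).1 this
    obtain ⟨R, hR⟩ := hdvd
    intro x
    refine ⟨aeval a R x, ?_⟩
    have h1 : aeval a ((X - C c) ^ e * Q - χ) = (a - c • (1 : Module.End ℤ L)) ^ e * aeval a Q := by
      rw [map_sub, map_mul, map_pow, map_sub, aeval_X, aeval_C, hχ, LinearMap.aeval_self_charpoly,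
        sub_zero, Algebra.algebraMap_eq_smul_one]
    have h2 := congrArg (fun T : Module.End ℤ L => T x) h1
    simp only [Module.End.mul_apply] at h2
    rw [← h2, hR, map_mul, aeval_C, Module.End.mul_apply, Algebra.algebraMap_eq_smul_one,
      LinearMap.smul_apply, Module.End.one_apply]

end Fermat.Agent.S41.Count.Charpoly
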