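/-
S41, BlockCount, abstract integral lifting step (Ribet's congruence-module argument, the part
"a `θ`-eigenvector of `ker (i_* mod p)` lifts to `ker i_*`").

`L`, `H` abelian groups (`L` finitely generated and torsion-free), `ιD : H →+ L` (`= i_*`),
commuting operators `TL i`, `TH i` intertwined by `ιD`, a pair `(PL, PH)` intertwined by `ιD` with
`PH` commuting with the `TH i`, `PH y ≡ u y (mod p)` (`p ∤ u`) and
`(S') : PL L ⊆ ιD H + p L`.  Then a mod-`p` `θ`-eigenvector `y ∉ pH` with `ιD y ∈ pL` can be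
replaced by `y' ∈ ker ιD`, `y' ∉ pH`, still a `θ`-eigenvector modulo `p • ker ιD`.

Proof: iteration `y_{n+1} := PH y_n - p^{n+1} h_n` and the Artin-Rees lemma for `ιD(H) ⊆ L`.
No completeness, no idempotent lifting, no localisation.
-/
import Mathlib

set_option autoImplicit false
set_option linter.unusedSectionVars false

namespace Fermat.Agent.S41.Count.Lift

section Basic

variable {L : Type*} [AddCommGroup L]

/-- membership in `(p)^n • ⊤`, elementwise. -/
theorem mem_span_pow_smul_top_iff (p : ℕ) (n : ℕ) (x : L) :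
    x ∈ ((Ideal.span {(p : ℤ)}) ^ n • (⊤ : Submodule ℤ L)) ↔ ∃ w : L, x = ((p : ℤ) ^ n) • w := by
  rw [Ideal.span_singleton_pow, Submodule.ideal_span_singleton_smul]
  constructor
  · intro hx
    obtain ⟨w, -, hw⟩ := (Submodule.mem_smul_pointwise_iff_exists _ _ _).1 hx
    exact ⟨w, hw.symm⟩
  · rintro ⟨w, rfl⟩
    exact Submodule.smul_mem_pointwise_smul _ _ _ Submodule.mem_top

end Basic

section Main

variable {L H : Type*} [AddCommGroup L] [AddCommGroup H] [Module.Finite ℤ L]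
  [Module.IsTorsionFree ℤ L]

/-- **Artin-Rees for the image of an additive map**: there is `k` such that every element of
`ιD(H)` divisible by `p^(k+1)` in `L` is `p` times an element of `ιD(H)`. -/
theorem exists_artinRees (p : ℕ) (ιD : H →+ L) :
    ∃ k : ℕ, ∀ (h : H) (w : L), ιD h = ((p : ℤ) ^ (k + 1)) • w →
      ∃ z : H, ιD h = (p : ℤ) • ιD z := by
  obtain ⟨k, hk⟩ := Ideal.exists_pow_inf_eq_pow_smul (Ideal.span {(p : ℤ)})
    (LinearMap.range ιD.toIntLinearMap)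
  refine ⟨k, fun h w hw => ?_⟩
  have h1 : ιD h ∈ (Ideal.span {(p : ℤ)}) ^ (k + 1) • (⊤ : Submodule ℤ L) ⊓
      LinearMap.range ιD.toIntLinearMap := by
    refine ⟨(mem_span_pow_smul_top_iff p (k + 1) _).2 ⟨w, hw⟩, ?_⟩
    exact ⟨h, rfl⟩
  rw [hk (k + 1) (Nat.le_succ k), Nat.add_sub_cancel_left, pow_one,
    Submodule.ideal_span_singleton_smul] at h1
  obtain ⟨x, hx, hxe⟩ := (Submodule.mem_smul_pointwise_iff_exists _ _ _).1 h1
  obtain ⟨z, hz⟩ := hx.2
  refine ⟨z, ?_⟩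
  rw [← hxe, ← hz]
  rfl

variable (p : ℕ) (hp : p.Prime) (ιD : H →+ L) {I : Type*} (TL : I → L →+ L) (TH : I → H →+ H)
  (hT : ∀ i h, ιD (TH i h) = TL i (ιD h)) (θ : I → ℤ)
  (PL : L →+ L) (PH : H →+ H) (hP : ∀ h, ιD (PH h) = PL (ιD h))
  (u : ℤ) (hS : ∀ w : L, ∃ (h : H) (w' : L), PL w = ιD h + (p : ℤ) • w')

include hP hS in
/-- the iteration. -/
theorem exists_approx (y : H) (hyP : ∃ z : H, PH y = u • y + (p : ℤ) • z)
    (hyι : ∃ w : L, ιD y = (p : ℤ) • w) (n : ℕ) :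
    ∃ (yn : H) (wn : L) (zn : H), ιD yn = ((p : ℤ) ^ (n + 1)) • wn ∧
      yn = (u ^ n) • y + (p : ℤ) • zn := by
  induction n with
  | zero =>
    obtain ⟨w, hw⟩ := hyι
    exact ⟨y, w, 0, by rw [zero_add, pow_one]; exact hw, by simp⟩
  | succ n ih =>
    obtain ⟨yn, wn, zn, h1, h2⟩ := ih
    obtain ⟨h, w', hw'⟩ := hS wn
    obtain ⟨z, hz⟩ := hyP
    refine ⟨PH yn - ((p : ℤ) ^ (n + 1)) • h, w', u ^ n • z + PH zn - ((p : ℤ) ^ n) • h, ?_, ?_⟩
    · rw [map_sub, hP, h1, map_zsmul, map_zsmul, hw']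
      module
    · rw [h2, map_add, map_zsmul, map_zsmul, hz]
      module

include hp hT hP hS in
/-- **the lifting step.** -/
theorem exists_lift_ker (hu : ¬ (p : ℤ) ∣ u) (y : H) (hy : ∀ z : H, y ≠ (p : ℤ) • z)
    (hyT : ∀ i, ∃ z : H, TH i y = θ i • y + (p : ℤ) • z)
    (hyP : ∃ z : H, PH y = u • y + (p : ℤ) • z)
    (hyι : ∃ w : L, ιD y = (p : ℤ) • w) :
    ∃ y' : H, ιD y' = 0 ∧ (∀ z : H, y' ≠ (p : ℤ) • z) ∧
      ∀ i, ∃ z : H, ιD z = 0 ∧ TH i y' = θ i • y' + (p : ℤ) • z := by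
  obtain ⟨k, hk⟩ := exists_artinRees p ιD
  obtain ⟨yk, wk, zk, h1, h2⟩ := exists_approx p ιD PL PH hP u hS y hyP hyι k
  obtain ⟨z, hz⟩ := hk yk wk h1
  have hp0 : (p : ℤ) ≠ 0 := by exact_mod_cast hp.ne_zero
  -- `y' := yk - p z`
  have hker : ιD (yk - (p : ℤ) • z) = 0 := by
    rw [map_sub, map_zsmul, hz, sub_self]
  have hform : yk - (p : ℤ) • z = (u ^ k) • y + (p : ℤ) • (zk - z) := by
    rw [h2]; module
  have hcop : IsCoprime (u ^ k) (p : ℤ) := by
    have hprime : Prime (p : ℤ) := Nat.prime_iff_prime_int.1 hp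
    have : IsCoprime u (p : ℤ) :=
      ((hprime.irreducible.coprime_iff_not_dvd).2 hu).symm
    exact this.pow_left
  refine ⟨yk - (p : ℤ) • z, hker, ?_, ?_⟩
  · intro z' hz'
    obtain ⟨a, b, hab⟩ := hcop
    -- `y = a u^k y + b p y`
    have h3 : (u ^ k) • y = (p : ℤ) • (z' - (zk - z)) := by
      have e : (u ^ k) • y = (yk - (p : ℤ) • z) - (p : ℤ) • (zk - z) := by rw [hform]; module
      rw [e, hz']; module
    have h4 : y = (p : ℤ) • (a • (z' - (zk - z)) + b • y) := by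
      have : y = (a * u ^ k + b * (p : ℤ)) • y := by rw [hab, one_smul]
      rw [add_smul, mul_smul, mul_smul, h3] at this
      rw [smul_add, smul_comm (p : ℤ) a, smul_comm (p : ℤ) b]
      exact this
    exact hy _ h4
  · intro i
    obtain ⟨zi, hzi⟩ := hyT i
    -- `TH i y' = u^k (θ y + p zi) + p TH (zk - z) = θ y' + p (...)`
    have h5 : TH i (yk - (p : ℤ) • z) = θ i • (yk - (p : ℤ) • z) +
        (p : ℤ) • ((u ^ k) • zi + TH i (zk - z) - θ i • (zk - z)) := by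
      rw [hform, map_add, map_zsmul, map_zsmul, hzi, map_sub]
      module
    refine ⟨(u ^ k) • zi + TH i (zk - z) - θ i • (zk - z), ?_, h5⟩
    -- `p • ιD (...) = 0`, `L` torsion-free
    have h6 := congrArg ιD h5
    rw [hT, hker, map_zero, map_add, map_zsmul, hker, smul_zero, zero_add, map_zsmul] at h6
    exact (smul_eq_zero.1 h6.symm).resolve_left hp0

end Main

end Fermat.Agent.S41.Count.Lift
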