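/-
S41, BlockCount, abstract core (Ribet's congruence-module argument), pure algebra.

`L = X(N)²`, `H = X(Nq)` (finitely generated torsion-free abelian groups), `ιU = i^* : L → H`,
`ιD = i_* : H → L`, adjoint for bilinear forms `BL`, `BH` which are unimodular modulo `p`
(`NL`, `NH`), commuting Hecke families `TL i`, `TH i` intertwined by `ιU`, `ιD`; ONE distinguished
operator `TL i0` with an adjoint `TLd` for `BL` (`TLd = TL i0` in the self-adjoint case) which
separates the kernel of `i^* mod p` from the eigensystem `θ` (`IharaD`: `θ i0` is not an eigenvalue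
of `TLd` on `ker (i^* mod p)`), and a polynomial `(X - θ i0)^e * Q` killing `TLd` modulo `p` with
`p ∤ Q(θ i0)`.  Then a mod-`p` `θ`-eigenvector `x0 ∉ pL` with `i_* i^* x0 ∈ pL` produces a
`θ`-eigenvector modulo `p` in `ker i_*`:

`exists_new_eigenvector : ∃ y' ∈ ker ιD, y' ∉ pH ∧ ∀ i, TH i y' - θ i • y' ∈ p • ker ιD`.
-/
import Mathlib
import Fermat.Agent.S41.Count.Lift

set_option autoImplicit false
set_option linter.unusedSectionVars false

namespace Fermat.Agent.S41.Count.Main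

open Polynomial

/-! ### separation by a functional with values in `ZMod p` -/

section Sep

variable {L : Type*} [AddCommGroup L] [Module.Finite ℤ L] [Module.Free ℤ L]

theorem exists_functional (p : ℕ) [hp : Fact p.Prime] (N : AddSubgroup L)
    (hN : ∀ w : L, (p : ℤ) • w ∈ N) (v : L) (hv : v ∉ N) :
    ∃ φ : L →+ ZMod p, (∀ n ∈ N, φ n = 0) ∧ φ v ≠ 0 := by
  classical
  let b := Module.Free.chooseBasis ℤ L
  -- reduction of the coordinates
  let red : L →+ (Module.Free.ChooseBasisIndex ℤ L → ZMod p) :=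
    { toFun := fun x i => ((b.repr x i : ℤ) : ZMod p)
      map_zero' := by ext i; simp
      map_add' := by intro x y; ext i; simp }
  have hred0 : ∀ x : L, red x = 0 → ∃ w : L, x = (p : ℤ) • w := by
    intro x hx
    have h1 : ∀ i, (p : ℤ) ∣ b.repr x i := by
      intro i
      have := congrFun hx i
      exact (ZMod.intCast_zmod_eq_zero_iff_dvd _ p).1 this
    choose c hc using h1
    refine ⟨∑ i, c i • b i, ?_⟩
    rw [Finset.smul_sum]
    conv_lhs => rw [← b.sum_repr x]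
    refine Finset.sum_congr rfl fun i _ => ?_
    rw [hc i, mul_smul]
  -- the image of `N` is a `ZMod p`-subspace
  let N' : Submodule (ZMod p) (Module.Free.ChooseBasisIndex ℤ L → ZMod p) :=
    { carrier := {y | ∃ n ∈ N, red n = y}
      zero_mem' := ⟨0, N.zero_mem, map_zero _⟩
      add_mem' := by
        rintro _ _ ⟨n1, h1, rfl⟩ ⟨n2, h2, rfl⟩
        exact ⟨n1 + n2, N.add_mem h1 h2, map_add _ _ _⟩
      smul_mem' := by
        rintro c _ ⟨n, hn, rfl⟩
        refine ⟨(c.val : ℤ) • n, N.zsmul_mem hn _, ?_⟩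
        rw [map_zsmul]
        ext i
        simp only [Pi.smul_apply, smul_eq_mul, zsmul_eq_mul, ZMod.natCast_val]
        rw [ZMod.intCast_zmod_cast] }
  have hv' : red v ∉ N' := by
    rintro ⟨n, hn, hnv⟩
    have h0 : red (v - n) = 0 := by rw [map_sub, hnv, sub_self]
    obtain ⟨w, hw⟩ := hred0 _ h0
    apply hv
    have : v = n + (p : ℤ) • w := by rw [← hw]; abel
    rw [this]
    exact N.add_mem hn (hN w)
  obtain ⟨f, hf, hfN⟩ := Submodule.exists_dual_map_eq_bot_of_notMem hv' inferInstance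
  refine ⟨f.toAddMonoidHom.comp red, ?_, hf⟩
  intro n hn
  have : f (red n) ∈ N'.map f := ⟨red n, ⟨n, hn, rfl⟩, rfl⟩
  rw [hfN, Submodule.mem_bot] at this
  exact this

end Sep

/-! ### polynomials in an endomorphism -/

section Poly

variable {M M' : Type*} [AddCommGroup M] [AddCommGroup M']

/-- a linear map intertwining two endomorphisms intertwines their polynomials. -/
theorem aeval_intertwine (g : M →ₗ[ℤ] M') (a : Module.End ℤ M) (b : Module.End ℤ M')
    (h : ∀ x, g (a x) = b (g x)) (Q : ℤ[X]) (x : M) :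
    g (aeval a Q x) = aeval b Q (g x) := by
  induction Q using Polynomial.induction_on generalizing x with
  | C r => simp
  | add P R hP hR => simp only [map_add, LinearMap.add_apply, hP, hR]
  | monomial n r ih =>
    have e1 : aeval a (C r * X ^ (n + 1)) x = aeval a (C r * X ^ n) (a x) := by
      simp only [map_mul, map_pow, aeval_X, aeval_C, pow_succ, Module.End.mul_apply]
    have e2 : aeval b (C r * X ^ (n + 1)) (g x) = aeval b (C r * X ^ n) (b (g x)) := by
      simp only [map_mul, map_pow, aeval_X, aeval_C, pow_succ, Module.End.mul_apply]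
    rw [e1, e2, ih, h]

/-- adjointness passes to polynomials. -/
theorem aeval_adjoint (B : M →ₗ[ℤ] M →ₗ[ℤ] ℤ) (a ad : Module.End ℤ M)
    (h : ∀ x w, B x (a w) = B (ad x) w) (Q : ℤ[X]) (x w : M) :
    B x (aeval a Q w) = B (aeval ad Q x) w := by
  induction Q using Polynomial.induction_on generalizing x w with
  | C r => simp
  | add P R hP hR => simp only [map_add, LinearMap.add_apply, hP, hR]
  | monomial n r ih =>
    have e1 : aeval a (C r * X ^ (n + 1)) w = aeval a (C r * X ^ n) (a w) := by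
      simp only [map_mul, map_pow, aeval_X, aeval_C, pow_succ, Module.End.mul_apply]
    have e2 : aeval ad (C r * X ^ (n + 1)) x = ad (aeval ad (C r * X ^ n) x) := by
      simp only [map_mul, map_pow, aeval_X, aeval_C, pow_succ']
      rw [← mul_assoc, Algebra.commutes r ad, mul_assoc, Module.End.mul_apply]
    rw [e1, e2, ih, h]

/-- an eigenvector modulo `p` is an eigenvector modulo `p` of every polynomial. -/
theorem aeval_eigen_mod (p : ℤ) (a : Module.End ℤ M) (c : ℤ) (y : M)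
    (h : ∃ z, a y = c • y + p • z) (Q : ℤ[X]) :
    ∃ z, aeval a Q y = (Q.eval c) • y + p • z := by
  obtain ⟨z0, hz0⟩ := h
  have hpow : ∀ n : ℕ, ∃ z, (a ^ n) y = (c ^ n) • y + p • z := by
    intro n
    induction n with
    | zero => exact ⟨0, by simp⟩
    | succ n ih =>
      obtain ⟨z, hz⟩ := ih
      refine ⟨c ^ n • z0 + a z, ?_⟩
      rw [pow_succ', Module.End.mul_apply, hz, map_add, map_zsmul, map_zsmul, hz0]
      module
  induction Q using Polynomial.induction_on' with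
  | add P R hP hR =>
    obtain ⟨z1, h1⟩ := hP
    obtain ⟨z2, h2⟩ := hR
    refine ⟨z1 + z2, ?_⟩
    rw [map_add, LinearMap.add_apply, h1, h2, eval_add]
    module
  | monomial n r =>
    obtain ⟨z, hz⟩ := hpow n
    refine ⟨r • z, ?_⟩
    rw [← C_mul_X_pow_eq_monomial, map_mul, map_pow, aeval_X, aeval_C, Module.End.mul_apply, hz,
      Algebra.algebraMap_eq_smul_one, LinearMap.smul_apply, Module.End.one_apply, eval_mul,
      eval_C, eval_pow, eval_X]
    module

end Poly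

/-! ### the main theorem -/

section Main

variable {L H : Type*} [AddCommGroup L] [AddCommGroup H] [Module.Finite ℤ L]
  [Module.Free ℤ L]
  (p : ℕ) [hp : Fact p.Prime]
  (ιU : L →ₗ[ℤ] H) (ιD : H →ₗ[ℤ] L)
  (BL : L →ₗ[ℤ] L →ₗ[ℤ] ℤ) (BH : H →ₗ[ℤ] H →ₗ[ℤ] ℤ)
  (hadj : ∀ x h, BH (ιU x) h = BL x (ιD h))
  (NL : ∀ φ : L →+ ZMod p, ∃ x : L, ∀ w : L, φ w = ((BL x w : ℤ) : ZMod p))
  (NH : ∀ z : H, (∀ h : H, (p : ℤ) ∣ BH z h) → ∃ z' : H, z = (p : ℤ) • z')
  {I : Type*} (TL : I → Module.End ℤ L) (TH : I → Module.End ℤ H)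
  (hTU : ∀ i x, ιU (TL i x) = TH i (ιU x))
  (hTD : ∀ i h, ιD (TH i h) = TL i (ιD h))
  (i0 : I)
  (TLd : Module.End ℤ L) (THd : Module.End ℤ H)
  (hdU : ∀ x, ιU (TLd x) = THd (ιU x))
  (hadjT : ∀ x w, BL x (TL i0 w) = BL (TLd x) w)
  (θ : I → ℤ) (e : ℕ) (Q : ℤ[X]) (hu : ¬ (p : ℤ) ∣ Q.eval (θ i0))
  (hχ : ∀ x : L, ∃ w : L, ((TLd - θ i0 • (1 : Module.End ℤ L)) ^ e) (aeval TLd Q x) = (p : ℤ) • w)
  (IharaD : ∀ x : L, (∃ z : H, ιU x = (p : ℤ) • z) →
    (∃ w : L, TLd x - θ i0 • x = (p : ℤ) • w) → ∃ w : L, x = (p : ℤ) • w)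
  (Ihara : ∀ x : L, (∃ z : H, ιU x = (p : ℤ) • z) →
    (∀ i, ∃ w : L, TL i x = θ i • x + (p : ℤ) • w) → ∃ w : L, x = (p : ℤ) • w)

include hadj NL NH hdU hadjT hχ IharaD in
/-- **(S')**: `Q(T_{i0}) L ⊆ i_* H + p L` (dual Ihara, through the pairings). -/
theorem exists_decomp (w : L) :
    ∃ (h : H) (w' : L), aeval (TL i0) Q w = ιD h + (p : ℤ) • w' := by
  classical
  by_contra hcon
  -- the subgroup `N = i_* H + p L`
  let N : AddSubgroup L :=
    { carrier := {v | ∃ (h : H) (w' : L), v = ιD h + (p : ℤ) • w'}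
      zero_mem' := ⟨0, 0, by simp⟩
      add_mem' := by
        rintro _ _ ⟨h1, w1, rfl⟩ ⟨h2, w2, rfl⟩
        exact ⟨h1 + h2, w1 + w2, by rw [map_add]; module⟩
      neg_mem' := by
        rintro _ ⟨h1, w1, rfl⟩
        exact ⟨-h1, -w1, by rw [map_neg]; module⟩ }
  have hN : ∀ v : L, (p : ℤ) • v ∈ N := fun v => ⟨0, v, by rw [map_zero, zero_add]⟩
  have hv : aeval (TL i0) Q w ∉ N := fun ⟨h, w', hw'⟩ => hcon ⟨h, w', hw'⟩
  obtain ⟨φ, hφN, hφv⟩ := exists_functional p N hN _ hv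
  obtain ⟨x, hx⟩ := NL φ
  -- `ιU x ∈ pH`
  have h1 : ∃ z : H, ιU x = (p : ℤ) • z := by
    refine NH _ fun h => ?_
    rw [hadj]
    have : φ (ιD h) = 0 := hφN _ ⟨h, 0, by simp⟩
    rw [hx] at this
    exact (ZMod.intCast_zmod_eq_zero_iff_dvd _ p).1 this
  -- `x' := Q(TLd) x ∉ pL`
  have h2 : ¬ ∃ w' : L, aeval TLd Q x = (p : ℤ) • w' := by
    rintro ⟨w', hw'⟩
    apply hφv
    rw [hx, aeval_adjoint BL (TL i0) TLd hadjT, hw', map_zsmul, LinearMap.smul_apply, smul_eq_mul,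
      Int.cast_mul, Int.cast_natCast, ZMod.natCast_self, zero_mul]
  -- `ιU x' ∈ pH`
  have h3 : ∀ m : ℕ, ∃ z : H,
      ιU (((TLd - θ i0 • (1 : Module.End ℤ L)) ^ m) (aeval TLd Q x)) = (p : ℤ) • z := by
    intro m
    obtain ⟨z, hz⟩ := h1
    have hint : ∀ v, ιU ((TLd - θ i0 • (1 : Module.End ℤ L)) v)
        = (THd - θ i0 • (1 : Module.End ℤ H)) (ιU v) := by
      intro v
      simp only [LinearMap.sub_apply, LinearMap.smul_apply, Module.End.one_apply, map_sub,
        map_zsmul, hdU]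
    have hpow : ∀ (m : ℕ) v, ιU (((TLd - θ i0 • (1 : Module.End ℤ L)) ^ m) v)
        = ((THd - θ i0 • (1 : Module.End ℤ H)) ^ m) (ιU v) := by
      intro m
      induction m with
      | zero => intro v; simp
      | succ m ih =>
        intro v
        rw [pow_succ, Module.End.mul_apply, ih, hint, pow_succ, Module.End.mul_apply]
    refine ⟨((THd - θ i0 • (1 : Module.End ℤ H)) ^ m) (aeval THd Q z), ?_⟩
    rw [hpow, aeval_intertwine ιU TLd THd hdU, hz, map_zsmul, map_zsmul]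
  -- the least `m` with `(TLd - θ)^m x' ∈ pL`
  have hex : ∃ m : ℕ, ∃ w' : L,
      ((TLd - θ i0 • (1 : Module.End ℤ L)) ^ m) (aeval TLd Q x) = (p : ℤ) • w' := ⟨e, hχ x⟩
  have hm := Nat.find_spec hex
  have hm0 : Nat.find hex ≠ 0 := by
    intro h0
    rw [h0] at hm
    exact h2 (by simpa using hm)
  obtain ⟨m, hm1⟩ := Nat.exists_eq_succ_of_ne_zero hm0
  have hmin : ¬ ∃ w' : L,
      ((TLd - θ i0 • (1 : Module.End ℤ L)) ^ m) (aeval TLd Q x) = (p : ℤ) • w' :=
    Nat.find_min hex (by rw [hm1]; exact Nat.lt_succ_self m)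
  apply hmin
  refine IharaD _ (h3 m) ?_
  obtain ⟨w', hw'⟩ := hm
  refine ⟨w', ?_⟩
  rw [hm1, pow_succ', Module.End.mul_apply] at hw'
  rw [← hw']
  simp [LinearMap.sub_apply]

include hadj NL NH hTU hTD hdU hadjT hu hχ IharaD Ihara in
/-- **BlockCount, abstract form.** -/
theorem exists_new_eigenvector (x0 : L) (hx0 : ∀ w : L, x0 ≠ (p : ℤ) • w)
    (hx0T : ∀ i, ∃ w : L, TL i x0 = θ i • x0 + (p : ℤ) • w)
    (hx0M : ∃ w : L, ιD (ιU x0) = (p : ℤ) • w) :
    ∃ y' : H, ιD y' = 0 ∧ (∀ z : H, y' ≠ (p : ℤ) • z) ∧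
      ∀ i, ∃ z : H, ιD z = 0 ∧ TH i y' = θ i • y' + (p : ℤ) • z := by
  have hy : ∀ z : H, ιU x0 ≠ (p : ℤ) • z := by
    intro z hz
    obtain ⟨w, hw⟩ := Ihara x0 ⟨z, hz⟩ hx0T
    exact hx0 w hw
  have hyT : ∀ i, ∃ z : H, TH i (ιU x0) = θ i • ιU x0 + (p : ℤ) • z := by
    intro i
    obtain ⟨w, hw⟩ := hx0T i
    refine ⟨ιU w, ?_⟩
    rw [← hTU, hw, map_add, map_zsmul, map_zsmul]
  have hyP : ∃ z : H, (aeval (TH i0) Q) (ιU x0) = (Q.eval (θ i0)) • ιU x0 + (p : ℤ) • z :=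
    aeval_eigen_mod (p : ℤ) (TH i0) (θ i0) (ιU x0) (hyT i0) Q
  have hP : ∀ h, ιD (aeval (TH i0) Q h) = aeval (TL i0) Q (ιD h) :=
    fun h => aeval_intertwine ιD (TH i0) (TL i0) (hTD i0) Q h
  have hS := exists_decomp p ιU ιD BL BH hadj NL NH TL i0 TLd THd hdU hadjT θ e Q hχ IharaD
  exact Lift.exists_lift_ker p hp.out ιD.toAddMonoidHom (fun i => (TL i).toAddMonoidHom)
    (fun i => (TH i).toAddMonoidHom) hTD θ (aeval (TL i0) Q).toAddMonoidHom
    (aeval (TH i0) Q).toAddMonoidHom hP (Q.eval (θ i0)) hS hu (ιU x0) hy hyT hyP hx0M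

end Main

end Fermat.Agent.S41.Count.Main
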