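/-
S41, BlockCount: perfect `ℤ`-valued pairings satisfy the two mod-`p` unimodularity hypotheses
`NL`, `NH` of `Fermat.Agent.S41.Count.Main.exists_new_eigenvector`.
-/
import Mathlib

set_option autoImplicit false

namespace Fermat.Agent.S41.Count.Perfect

section

variable {L : Type*} [AddCommGroup L]

/-- an additive functional with values in `ZMod p` on a free `ℤ`-module lifts to `ℤ`. -/
theorem exists_lift_functional [Module.Free ℤ L] (p : ℕ) (φ : L →+ ZMod p) :
    ∃ ψ : L →ₗ[ℤ] ℤ, ∀ w : L, φ w = ((ψ w : ℤ) : ZMod p) := by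
  classical
  let b := Module.Free.chooseBasis ℤ L
  have hc : ∀ i, ∃ c : ℤ, (c : ZMod p) = φ (b i) := fun i => ZMod.intCast_surjective _
  choose c hc using hc
  refine ⟨b.constr ℤ c, ?_⟩
  have key : φ.toIntLinearMap =
      (Int.castAddHom (ZMod p)).toIntLinearMap ∘ₗ (b.constr ℤ c) := by
    refine b.ext fun i => ?_
    simp [hc]
  intro w
  have := LinearMap.congr_fun key w
  simpa using this

/-- `NL` from surjectivity of `x ↦ BL x` onto the dual. -/
theorem NL_of_surjective [Module.Free ℤ L] (p : ℕ) (BL : L →ₗ[ℤ] L →ₗ[ℤ] ℤ)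
    (h : Function.Surjective BL) :
    ∀ φ : L →+ ZMod p, ∃ x : L, ∀ w : L, φ w = ((BL x w : ℤ) : ZMod p) := by
  intro φ
  obtain ⟨ψ, hψ⟩ := exists_lift_functional p φ
  obtain ⟨x, hx⟩ := h ψ
  exact ⟨x, fun w => by rw [hx, hψ]⟩

/-- `NH` from bijectivity of `z ↦ BH z` onto the dual. -/
theorem NH_of_bijective (p : ℕ) (hp : p ≠ 0) (BH : L →ₗ[ℤ] L →ₗ[ℤ] ℤ)
    (h : Function.Bijective BH) :
    ∀ z : L, (∀ w : L, (p : ℤ) ∣ BH z w) → ∃ z' : L, z = (p : ℤ) • z' := by
  intro z hz
  have hp0 : (p : ℤ) ≠ 0 := by exact_mod_cast hp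
  choose c hc using hz
  -- `c` is linear
  let ψ : L →ₗ[ℤ] ℤ :=
    { toFun := c
      map_add' := by
        intro a b
        apply mul_left_cancel₀ hp0
        rw [mul_add, ← hc, ← hc, ← hc, map_add]
      map_smul' := by
        intro r a
        apply mul_left_cancel₀ hp0
        rw [← hc, map_smul, hc a]
        simp only [smul_eq_mul, RingHom.id_apply]
        ring }
  obtain ⟨z', hz'⟩ := h.2 ψ
  refine ⟨z', h.1 ?_⟩
  ext w
  rw [map_smul, hz', LinearMap.smul_apply, smul_eq_mul, hc w]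
  rfl

end

end Fermat.Agent.S41.Count.Perfect
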