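/-
S41, BlockCount: the abstract counting theorem with clean hypotheses
(perfect pairings, adjointness, one (self-)adjoint Hecke operator, Ihara's lemma at that operator).
-/
import Mathlib
import Fermat.Agent.S41.Count.Main
import Fermat.Agent.S41.Count.Perfect
import Fermat.Agent.S41.Count.Charpoly

set_option autoImplicit false
set_option linter.unusedSectionVars false

namespace Fermat.Agent.S41.Count.Abstract

open Polynomial

variable {L H : Type*} [AddCommGroup L] [AddCommGroup H] [Module.Finite ℤ L]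
  [Module.Free ℤ L]
  (p : ℕ) [hp : Fact p.Prime]
  (ιU : L →ₗ[ℤ] H) (ιD : H →ₗ[ℤ] L)
  (BL : L →ₗ[ℤ] L →ₗ[ℤ] ℤ) (BH : H →ₗ[ℤ] H →ₗ[ℤ] ℤ)
  (hadj : ∀ x h, BH (ιU x) h = BL x (ιD h))
  (hBL : Function.Surjective BL) (hBH : Function.Bijective BH)
  {I : Type*} (TL : I → Module.End ℤ L) (TH : I → Module.End ℤ H)
  (hTU : ∀ i x, ιU (TL i x) = TH i (ιU x))
  (hTD : ∀ i h, ιD (TH i h) = TL i (ιD h))
  (i0 : I) (θ : I → ℤ)

include hadj hBL hBH hTU hTD in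
/-- **BlockCount, abstract form, general adjoint.** `TLd` is the `BL`-adjoint of `TL i0`,
intertwined by `ιU` with `THd`. -/
theorem exists_new_eigenvector_adj
    (TLd : Module.End ℤ L) (THd : Module.End ℤ H)
    (hdU : ∀ x, ιU (TLd x) = THd (ιU x))
    (hadjT : ∀ x w, BL x (TL i0 w) = BL (TLd x) w)
    (IharaD : ∀ x : L, (∃ z : H, ιU x = (p : ℤ) • z) →
      (∃ w : L, TLd x - θ i0 • x = (p : ℤ) • w) → ∃ w : L, x = (p : ℤ) • w)
    (Ihara : ∀ x : L, (∃ z : H, ιU x = (p : ℤ) • z) →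
      (∀ i, ∃ w : L, TL i x = θ i • x + (p : ℤ) • w) → ∃ w : L, x = (p : ℤ) • w)
    (x0 : L) (hx0 : ∀ w : L, x0 ≠ (p : ℤ) • w)
    (hx0T : ∀ i, ∃ w : L, TL i x0 = θ i • x0 + (p : ℤ) • w)
    (hx0M : ∃ w : L, ιD (ιU x0) = (p : ℤ) • w) :
    ∃ y' : H, ιD y' = 0 ∧ (∀ z : H, y' ≠ (p : ℤ) • z) ∧
      ∀ i, ∃ z : H, ιD z = 0 ∧ TH i y' = θ i • y' + (p : ℤ) • z := by
  obtain ⟨e, Q, hu, hχ⟩ := Charpoly.exists_factor p TLd (θ i0)
  exact Main.exists_new_eigenvector p ιU ιD BL BH hadj (Perfect.NL_of_surjective p BL hBL)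
    (Perfect.NH_of_bijective p hp.out.ne_zero BH hBH) TL TH hTU hTD i0 TLd THd hdU hadjT θ e Q hu hχ
    IharaD Ihara x0 hx0 hx0T hx0M

include hadj hBL hBH hTU hTD in
/-- **BlockCount, abstract form, self-adjoint case.** -/
theorem exists_new_eigenvector_self
    (hself : ∀ x w, BL x (TL i0 w) = BL (TL i0 x) w)
    (Ihara : ∀ x : L, (∃ z : H, ιU x = (p : ℤ) • z) →
      (∃ w : L, TL i0 x = θ i0 • x + (p : ℤ) • w) → ∃ w : L, x = (p : ℤ) • w)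
    (x0 : L) (hx0 : ∀ w : L, x0 ≠ (p : ℤ) • w)
    (hx0T : ∀ i, ∃ w : L, TL i x0 = θ i • x0 + (p : ℤ) • w)
    (hx0M : ∃ w : L, ιD (ιU x0) = (p : ℤ) • w) :
    ∃ y' : H, ιD y' = 0 ∧ (∀ z : H, y' ≠ (p : ℤ) • z) ∧
      ∀ i, ∃ z : H, ιD z = 0 ∧ TH i y' = θ i • y' + (p : ℤ) • z := by
  refine exists_new_eigenvector_adj p ιU ιD BL BH hadj hBL hBH TL TH hTU hTD i0 θ (TL i0) (TH i0)
    (hTU i0) hself ?_ ?_ x0 hx0 hx0T hx0M
  · rintro x hx ⟨w, hw⟩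
    exact Ihara x hx ⟨w, by rw [← hw]; abel⟩
  · intro x hx hT
    exact Ihara x hx (hT i0)

end Fermat.Agent.S41.Count.Abstract
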