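import Fermat.Agent.S41.Count.KerLift

/-!
# S41 / BlockCount, (V5) glue (helper29)

`KerLift.exists_eigenvector_in_span_of_mod_eigenvector` applied to the image `B := K.map cast` of a
submodule `K` (`= ker i_*`) of an abstract finitely generated `ℤ`-module `Y` (`= XMod (N q) ℤ ℤ`)
under an injective `ℤ`-linear map `cast : Y → V` into a complex vector space (`= XMod (N q) ℂ ℂ`).
-/

set_option autoImplicit false

namespace Fermat.Agent.S41.Count.KerBridge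

open Fermat.Agent.S41.Count.Descent

variable {Y V : Type*} [AddCommGroup Y] [Module.Finite ℤ Y] [AddCommGroup V] [Module ℂ V]

theorem exists_eigenvector_of_ker (cast : Y →ₗ[ℤ] V) (hcast : Function.Injective cast)
    (K : Submodule ℤ Y) {ι : Type*} (TY : ι → Module.End ℤ Y) (T : ι → Module.End ℂ V)
    (hcomm : ∀ i j, Commute (T i) (T j))
    (hT : ∀ i y, cast (TY i y) = T i (cast y)) (hK : ∀ i, ∀ y ∈ K, TY i y ∈ K)
    (p : ℕ) (y : Y) (hyK : y ∈ K) (hy : ∀ z ∈ K, y ≠ (p : ℤ) • z)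
    (S : Set ι) (χ : ι → ℤ)
    (hχ : ∀ i ∈ S, ∃ z ∈ K, TY i y = χ i • y + (p : ℤ) • z) :
    ∃ v ∈ Submodule.span ℂ ((K.map cast : Submodule ℤ V) : Set V), v ≠ 0 ∧
      ∃ θ : ι → ℂ, (∀ i, T i v = θ i • v) ∧
      ∃ 𝔪' : Ideal (integralClosure ℤ ℂ), 𝔪'.IsMaximal ∧ (p : integralClosure ℤ ℂ) ∈ 𝔪' ∧
        ∀ i ∈ S, ∃ c : integralClosure ℤ ℂ,
          (c : ℂ) = θ i ∧ c - (χ i : integralClosure ℤ ℂ) ∈ 𝔪' := by
  have hnoeth : IsNoetherian ℤ Y := isNoetherian_of_isNoetherianRing_of_finite ℤ Y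
  have hBfg : (K.map cast).FG := (IsNoetherian.noetherian K).map cast
  refine KerLift.exists_eigenvector_in_span_of_mod_eigenvector T hcomm (K.map cast) hBfg ?_ p
    (cast y) ⟨y, hyK, rfl⟩ ?_ S χ ?_
  · rintro i _ ⟨k, hk, rfl⟩
    exact ⟨TY i k, hK i k hk, hT i k⟩
  · intro h
    obtain ⟨_, ⟨k, hk, rfl⟩, hk'⟩ := mem_pLat_iff_nsmul.mp h
    apply hy k hk
    apply hcast
    rw [hk', map_zsmul, natCast_zsmul]
  · intro i hi
    obtain ⟨z, hzK, hz⟩ := hχ i hi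
    rw [mem_pLat_iff_nsmul]
    refine ⟨cast z, ⟨z, hzK, rfl⟩, ?_⟩
    have h3 : (χ i : ℂ) • cast y = cast (χ i • y) := by
      rw [map_zsmul]
      exact Int.cast_smul_eq_zsmul ℂ (χ i) (cast y)
    rw [h3, ← hT, hz, map_add, add_sub_cancel_left, map_zsmul, natCast_zsmul]

end Fermat.Agent.S41.Count.KerBridge
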